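import Fermat.Agent.S26.H926.AmpleBridge
import Fermat.Agent.S26.Ample.H73.Cover
import Fermat.Agent.S26.H126.Boundary
import Fermat.Agent.S26.Ample.H277.Finite

/-!
# Row S26, block AMPLE: FINAL assembly (sub-architect helper752), sorry-free

`alpha_of_squareLS : Stmt.SquareLS K → Stmt.Alpha K`

Block AMPLE is closed up to the theorem of the square (`Stmt.SquareLS`, block CUBE/PIC):

* `Ample.H73.cover`      : `Ample.Stmt.Cover K`        (helper73)
* `H126.boundary`        : `H926.Ample.Boundary K`     (helper126; UFD helper445, Hartogs helper714)
* `Ample.H277.project`   : `Ample.Stmt.Project K`      (helper277; GNN, LS2 helper566, B2 helper87)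
* `H926.Ample.alpha_of_geometric` : the glue            (helper926; small leaves, CDivOps helper164)
-/

set_option autoImplicit false
universe u

open CategoryTheory CategoryTheory.Limits AlgebraicGeometry NeronModelInfra GoodReductionJacobian

namespace Fermat.Agent.S26.Ample

/-- **Block AMPLE.** On an abelian variety over an algebraically closed field there is a
symmetric good system of `dim + 1` rational functions with algebraically independent affine
coordinates and finite degree, provided the theorem of the square holds. -/
theorem alpha_of_squareLS (K : Type u) [Field K] [IsAlgClosed K] (hSq : Stmt.SquareLS K) :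
    Stmt.Alpha K :=
  H926.Ample.alpha_of_geometric H73.cover (H126.boundary K) (H277.project K) hSq

end Fermat.Agent.S26.Ample
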