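import Fermat.Agent.S26.Ample.Top
import Fermat.Agent.S26.Ample.H752.FFStalk
import Fermat.Agent.S26.H926.AmpleTop
import Fermat.Agent.S26.H164.LSDiv

/-!
# Row S26, block AMPLE: the two interfaces are interchangeable (helper752)

Two equivalent leaf interfaces of block AMPLE are on main:
`Fermat.Agent.S26.Ample.Stmt.*` (helper752, `Ample/Spec.lean`) and
`Fermat.Agent.S26.H926.Ample.*` (helper926, `H926/AmpleSpec.lean`).
This file proves the adapters, so that a leaf proved in EITHER shape can be used, and gives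
the consumer form of the block:

`alpha_final : NegInvol K → TranslGeneric K → SymmAffine K → Boundary K → TranslAffine K →
    Ample.Stmt.Cover K → Project K → Stmt.SquareLS K → Stmt.Alpha K`

(`FFStalk`, `CDivOps`, `LSDivOps` are discharged here).
-/

set_option autoImplicit false
universe u

open CategoryTheory CategoryTheory.Limits AlgebraicGeometry NeronModelInfra GoodReductionJacobian

namespace Fermat.Agent.S26

noncomputable section

namespace Ample

variable {K : Type u} [Field K] [IsAlgClosed K]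

/-- `FFStalk` (helper926's shape) from `FFStalkMap` (proved in `Ample/H752/FFStalk.lean`). -/
theorem ffStalk926_of (hS : Stmt.FFStalkMap.{u}) : H926.Ample.FFStalk.{u} := by
  intro X Y _ _ φ h x f hf
  obtain ⟨r, hr⟩ := mem_span1.mp hf
  rw [mul_one] at hr
  subst hr
  refine ⟨mem_span1.mpr ⟨(φ.stalkMap x).hom r, by rw [mul_one, hS X Y φ h x r]⟩, ?_⟩
  intro ht
  -- `1 ∈ O_x · φ^* r`, so `φ^* r` is a unit, so `r` is a unit
  have h1 : (1 : X.functionField) ∈ LS.span1 (ffMap φ h (algebraMap _ _ r)) x := by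
    have ht' : LS.span1 (ffMap φ h (algebraMap _ _ r)) x = LS.span1 1 x := ht
    rw [ht']
    exact self_mem_span1 _ _
  obtain ⟨s, hs⟩ := mem_span1.mp h1
  rw [hS X Y φ h x r, ← map_mul] at hs
  have hinj : Function.Injective (algebraMap (X.presheaf.stalk x) X.functionField) :=
    FaithfulSMul.algebraMap_injective _ _
  have h2 : s * (φ.stalkMap x).hom r = 1 := hinj (by rw [hs, map_one])
  have hu : IsUnit ((φ.stalkMap x).hom r) := IsUnit.of_mul_eq_one _ (by rwa [mul_comm] at h2)
  have hur : IsUnit r := isUnit_of_map_unit (φ.stalkMap x).hom r hu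
  obtain ⟨v, hv⟩ := hur.exists_left_inv
  change LS.span1 (algebraMap _ _ r) (φ x) = LS.span1 1 (φ x)
  refine span1_eq_of_mem (mem_span1.mpr ⟨r, by rw [mul_one]⟩) (mem_span1.mpr ⟨v, ?_⟩)
  rw [← map_mul, hv, map_one]

/-- `FFStalk` holds. -/
theorem ffStalk926 : H926.Ample.FFStalk.{u} := ffStalk926_of H752.ffStalkMap

theorem translGeneric926_of (hT : Stmt.TranslIso K) : H926.Ample.TranslGeneric K :=
  fun X _ x => ((hT X).2 x).2

theorem symmAffine926_of (h : Stmt.AffSym K) : H926.Ample.SymmAffine K := h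

theorem affSym_of926 (h : H926.Ample.SymmAffine K) : Stmt.AffSym K := h

theorem translAffine926_of (h : Stmt.TranslAffine K) : H926.Ample.TranslAffine K := h

theorem translAffine_of926 (h : H926.Ample.TranslAffine K) : Stmt.TranslAffine K := h

theorem boundary926_of (h : Stmt.ComplDiv K) : H926.Ample.Boundary K := by
  intro X _ U hU hne
  obtain ⟨D, hE, hT, -⟩ := h X U hU hne
  exact ⟨D, hE, hT⟩

theorem project926_of (h : Stmt.Project K) : H926.Ample.Project K := by
  intro X _ N w hw
  obtain ⟨u, h1, h2, h3, h4⟩ := h X N w hw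
  exact ⟨u, h1, h3, h4, h2⟩

theorem project_of926 (h : H926.Ample.Project K) : Stmt.Project K := by
  intro X _ N w hw
  obtain ⟨u, h1, h3, h4, h2⟩ := h X N w hw
  exact ⟨u, h1, h2, h3, h4⟩

theorem cover_of926 (h : H926.Ample.Cover K) : Stmt.Cover K := by
  intro X _ U hne y
  obtain ⟨N, x, hx⟩ := h X U hne
  obtain ⟨j, hj⟩ := hx y
  exact ⟨x j, hj⟩

/-- The pointwise cover gives a finite cover (`A` is quasi-compact). -/
theorem cover926_of (h : Stmt.Cover K) : H926.Ample.Cover K := by
  intro X _ U hne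
  -- the open sets `W x`
  have hopen : ∀ x : X.Pt, ∃ W : X.A.Opens,
      ∀ y : X.A, y ∈ W ↔ (X.transl x y ∈ U ∧ X.transl (X.negPt x) y ∈ U) := by
    intro x
    refine ⟨(X.transl x) ⁻¹ᵁ U ⊓ (X.transl (X.negPt x)) ⁻¹ᵁ U, fun y => ?_⟩
    simp
  choose W hW using hopen
  haveI : IsProper X.str := X.bundle.proper
  haveI : CompactSpace X.A := QuasiCompact.compactSpace_of_compactSpace X.str
  obtain ⟨t, ht⟩ := isCompact_univ.elim_finite_subcover (fun x : X.Pt => (W x : Set X.A))
    (fun x => (W x).isOpen) (fun y _ => by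
      obtain ⟨x, hx⟩ := h X U hne y
      exact Set.mem_iUnion.mpr ⟨x, (hW x y).mpr hx⟩)
  have hcov' : ∀ y : X.A, ∃ x ∈ t, y ∈ W x := fun y => by
    have := ht (Set.mem_univ y)
    simpa using this
  have htne : t.Nonempty := by
    obtain ⟨x, hx, -⟩ := hcov' (genericPoint X.A)
    exact ⟨x, hx⟩
  obtain ⟨N, hN⟩ : ∃ N, t.card = N + 1 :=
    ⟨t.card - 1, (Nat.succ_pred_eq_of_pos (Finset.card_pos.mpr htne)).symm⟩
  let e : Fin (N + 1) ≃ t := (Fintype.equivFinOfCardEq (by simpa using hN)).symm
  refine ⟨N, fun j => (e j).1, fun y => ?_⟩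
  obtain ⟨x, hx, hy⟩ := hcov' y
  refine ⟨e.symm ⟨x, hx⟩, ?_⟩
  simpa using (hW x y).mp hy

/-- **Consumer form of block AMPLE.**  Remaining inputs: the group-law leaves `NegInvol`,
`TranslGeneric`, the geometric leaves `SymmAffine`, `Boundary`, `TranslAffine`, `Cover`
(pointwise form), `Project`, and the theorem of the square. -/
theorem alpha_final (hN : H926.Ample.NegInvol K) (hT : H926.Ample.TranslGeneric K)
    (h1 : H926.Ample.SymmAffine K) (h2 : H926.Ample.Boundary K)
    (h3a : H926.Ample.TranslAffine K) (h3b : Stmt.Cover K) (h4 : H926.Ample.Project K)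
    (hSq : S26.Stmt.SquareLS K) : S26.Stmt.Alpha K :=
  H926.Ample.alpha_of ffStalk926 hN hT h1 h2 h3a (cover926_of h3b) h4
    H164.cDivOps H164.lsDivOps hSq

end Ample

end

end Fermat.Agent.S26
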