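import Fermat.Agent.S26.Ample.Spec

/-!
# Row S26, block AMPLE: elementary calculus of `span1` (helper752)

Consequences of `Stmt.FFStalkMap` for pull-backs of Cartier divisors, used by the glue.
-/

set_option autoImplicit false
universe u

open CategoryTheory CategoryTheory.Limits AlgebraicGeometry NeronModelInfra GoodReductionJacobian

namespace Fermat.Agent.S26

noncomputable section

namespace Ample

section Span1

variable {X : Scheme.{u}} [IsIntegral X]

theorem mem_span1 {f g : X.functionField} {x : X} :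
    f ∈ LS.span1 g x ↔ ∃ r : X.presheaf.stalk x,
      algebraMap (X.presheaf.stalk x) X.functionField r * g = f := by
  rw [LS.span1, Submodule.mem_span_singleton]
  simp only [Algebra.smul_def]

theorem self_mem_span1 (g : X.functionField) (x : X) : g ∈ LS.span1 g x :=
  Submodule.subset_span rfl

theorem span1_le {f g : X.functionField} {x : X} (h : f ∈ LS.span1 g x) :
    LS.span1 f x ≤ LS.span1 g x :=
  Submodule.span_le.mpr (by simpa using h)

theorem span1_eq_of_mem {f g : X.functionField} {x : X} (h : f ∈ LS.span1 g x)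
    (h' : g ∈ LS.span1 f x) : LS.span1 f x = LS.span1 g x :=
  le_antisymm (span1_le h) (span1_le h')

theorem mul_mem_span1_mul {f g f' g' : X.functionField} {x : X} (h : f ∈ LS.span1 g x)
    (h' : f' ∈ LS.span1 g' x) : f * f' ∈ LS.span1 (g * g') x := by
  obtain ⟨r, rfl⟩ := mem_span1.mp h
  obtain ⟨r', rfl⟩ := mem_span1.mp h'
  exact mem_span1.mpr ⟨r * r', by rw [map_mul]; ring⟩

theorem mul_left_mem_span1 {f g : X.functionField} (h : X.functionField) {x : X}
    (hf : f ∈ LS.span1 g x) : h * f ∈ LS.span1 (h * g) x := by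
  obtain ⟨r, rfl⟩ := mem_span1.mp hf
  exact mem_span1.mpr ⟨r, by ring⟩

/-- If `O ⊆ O g₁`, `O ⊆ O g₂` and `g₁ g₂ ∈ O`, then `O g₁ = O`. -/
theorem span1_eq_one_of_mul {g₁ g₂ : X.functionField} {x : X}
    (h₁ : (1 : X.functionField) ∈ LS.span1 g₁ x) (h₂ : (1 : X.functionField) ∈ LS.span1 g₂ x)
    (h : g₁ * g₂ ∈ LS.span1 (1 : X.functionField) x) :
    LS.span1 g₁ x = LS.span1 1 x := by
  refine span1_eq_of_mem ?_ h₁
  obtain ⟨r₂, hr₂⟩ := mem_span1.mp h₂
  obtain ⟨s, hs⟩ := mem_span1.mp h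
  refine mem_span1.mpr ⟨r₂ * s, ?_⟩
  rw [map_mul]
  calc algebraMap _ _ r₂ * algebraMap _ _ s * 1
      = algebraMap _ _ r₂ * (algebraMap _ _ s * 1) := by ring
    _ = algebraMap _ _ r₂ * (g₁ * g₂) := by rw [hs]
    _ = g₁ * (algebraMap _ _ r₂ * g₂) := by ring
    _ = g₁ := by rw [hr₂, mul_one]

end Span1

section Pullback

variable {X Y : Scheme.{u}} [IsIntegral X] [IsIntegral Y]

theorem ffMap_mem_span1 (hS : Stmt.FFStalkMap.{u}) (φ : X ⟶ Y)
    (h : φ (genericPoint X) = genericPoint Y) (x : X) {f g : Y.functionField}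
    (hf : f ∈ LS.span1 g (φ x)) : ffMap φ h f ∈ LS.span1 (ffMap φ h g) x := by
  obtain ⟨r, rfl⟩ := mem_span1.mp hf
  refine mem_span1.mpr ⟨(φ.stalkMap x).hom r, ?_⟩
  rw [map_mul, hS X Y φ h x r]

theorem ffMap_span1_eq (hS : Stmt.FFStalkMap.{u}) (φ : X ⟶ Y)
    (h : φ (genericPoint X) = genericPoint Y) (x : X) {f g : Y.functionField}
    (hfg : LS.span1 f (φ x) = LS.span1 g (φ x)) :
    LS.span1 (ffMap φ h f) x = LS.span1 (ffMap φ h g) x :=
  span1_eq_of_mem (ffMap_mem_span1 hS φ h x (hfg ▸ self_mem_span1 f (φ x)))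
    (ffMap_mem_span1 hS φ h x (hfg ▸ self_mem_span1 g (φ x)))

/-- Pull-backs of effective divisors are effective. -/
theorem effective_of_isPullback (hS : Stmt.FFStalkMap.{u}) (φ : X ⟶ Y)
    (h : φ (genericPoint X) = genericPoint Y) {D : CDiv Y} {D' : CDiv X}
    (hD' : CDiv.IsPullback φ h D D') (hD : Effective D) : Effective D' := by
  intro x
  rw [hD' x]
  simpa using ffMap_mem_span1 hS φ h x (hD (φ x))

/-- The pull-back is trivial where the divisor is trivial. -/
theorem trivAt_of_isPullback (hS : Stmt.FFStalkMap.{u}) (φ : X ⟶ Y)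
    (h : φ (genericPoint X) = genericPoint Y) {D : CDiv Y} {D' : CDiv X}
    (hD' : CDiv.IsPullback φ h D D') {x : X} (hx : TrivAt D (φ x)) : TrivAt D' x := by
  rw [TrivAt, hD' x]
  simpa using ffMap_span1_eq hS φ h x hx

/-- For an effective divisor, the pull-back is trivial ONLY where the divisor is trivial
(the maps of local rings are local). -/
theorem trivAt_of_isPullback_trivAt (hS : Stmt.FFStalkMap.{u}) (φ : X ⟶ Y)
    (h : φ (genericPoint X) = genericPoint Y) {D : CDiv Y} {D' : CDiv X}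
    (hD' : CDiv.IsPullback φ h D D') (hD : Effective D) {x : X} (hx : TrivAt D' x) :
    TrivAt D (φ x) := by
  obtain ⟨r, hr⟩ := mem_span1.mp (hD (φ x))
  -- `ffMap g ∈ O_x`
  have hmem : ffMap φ h (D.gen (φ x)) ∈ LS.span1 (1 : X.functionField) x := by
    rw [← hx, hD' x]
    exact self_mem_span1 _ _
  obtain ⟨s, hs⟩ := mem_span1.mp hmem
  rw [mul_one] at hs
  have h1 : algebraMap (X.presheaf.stalk x) X.functionField ((φ.stalkMap x).hom r * s) = 1 := by
    rw [map_mul, hs, ← hS X Y φ h x r, ← map_mul, hr, map_one]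
  have hinj : Function.Injective (algebraMap (X.presheaf.stalk x) X.functionField) :=
    FaithfulSMul.algebraMap_injective _ _
  have h2 : (φ.stalkMap x).hom r * s = 1 := hinj (by rw [h1, map_one])
  have hu : IsUnit ((φ.stalkMap x).hom r) := IsUnit.of_mul_eq_one _ h2
  have hur : IsUnit r := isUnit_of_map_unit (φ.stalkMap x).hom r hu
  obtain ⟨v, hv⟩ := hur.exists_left_inv
  refine span1_eq_of_mem (mem_span1.mpr ⟨v, ?_⟩) (hD (φ x))
  calc algebraMap _ _ v * 1
      = algebraMap _ _ v * (algebraMap _ _ r * D.gen (φ x)) := by rw [hr]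
    _ = algebraMap _ _ (v * r) * D.gen (φ x) := by rw [map_mul]; ring
    _ = D.gen (φ x) := by rw [hv, map_one, one_mul]

end Pullback

end Ample

end

end Fermat.Agent.S26
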