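import Fermat.Agent.S26.SpecPic

/-!
# Row S26, block AMPLE: frozen interface (sub-architect helper752)

Target of the block: `Stmt.Alpha K` (`SpecDeg.lean`): on an abelian variety `A` of dimension `g`
there is a symmetric GOOD system of `g + 1` rational functions with algebraically independent
affine coordinates and finite degree (a finite morphism `A ⟶ P^g` given by a symmetric sheaf).

Route (Mumford AV §6, "2D is base point free"; everything in CDiv / LS language, no `Pic`):

* A1  `AffSym`      : a nonempty symmetric affine open `U ⊆ A`.
* A2  `ComplDiv`    : the complement of a nonempty affine open `U` is (the support of) an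
                      effective Cartier divisor `D`, trivial exactly on `U`, canonical
                      (stable under every automorphism that preserves `U`).
* A3  `Sections`    : a GOOD system `w` for `2D` (sections `h_x`, `x ∈ A(K)`, with affine
                      non-vanishing loci `(U - x) ∩ (U + x)`; from the theorem of the square).
* A4  `Project`     : `g + 1` members of the `K`-span of a GOOD system which still form a GOOD
                      system for the same sheaf, with algebraically independent coordinates and
                      finite degree (graded Noether normalisation).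

All declarations of the block live in the namespace `Fermat.Agent.S26.Ample`
(`Ample.Effective`, `Ample.TrivAt`, `Ample.Stmt.AffSym`, ...).

Glue (proved, sorry-free) is in `Ample/Top.lean`:
`sections_of_blocks` (A3 from the small leaves below) and `alpha_of_blocks`.
Only definitions here.
-/

set_option autoImplicit false
universe u

open CategoryTheory CategoryTheory.Limits AlgebraicGeometry NeronModelInfra GoodReductionJacobian

namespace Fermat.Agent.S26

noncomputable section

namespace Ample

section Defs

variable {X : Scheme.{u}} [IsIntegral X]

/-- The divisor is effective: `O_x ⊆ I_x` for the invertible fractional ideal sheaf `I`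
(the constant function `1` is a section of the sheaf). -/
def Effective (D : CDiv X) : Prop :=
  ∀ x, (1 : X.functionField) ∈ LS.span1 (D.gen x) x

/-- The divisor is trivial at `x`: `I_x = O_x`. -/
def TrivAt (D : CDiv X) (x : X) : Prop :=
  LS.span1 (D.gen x) x = LS.span1 1 x

end Defs

namespace Stmt

variable (K : Type u) [Field K] [IsAlgClosed K]

/-! ## Basic calculus (small leaves) -/

/-- FF-STALK: the map of function fields restricts to the map of local rings.
(Mathlib: `Scheme.Hom.stalkSpecializes_stalkMap`.) -/
def FFStalkMap : Prop :=
  ∀ (X Y : Scheme.{u}) [IsIntegral X] [IsIntegral Y] (φ : X ⟶ Y)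
    (h : φ (genericPoint X) = genericPoint Y) (x : X) (r : Y.presheaf.stalk (φ x)),
    ffMap φ h (algebraMap (Y.presheaf.stalk (φ x)) Y.functionField r) =
      algebraMap (X.presheaf.stalk x) X.functionField ((φ.stalkMap x).hom r)

/-- TRANSL: translations by `K`-points and `[-1]` are isomorphisms and preserve the generic
point. -/
def TranslIso : Prop :=
  ∀ (X : AbVar K) [IsIntegral X.A],
    IsIso X.negHom ∧ ∀ x : X.Pt, IsIso (X.transl x) ∧
      X.transl x (genericPoint X.A) = genericPoint X.A

/-- A1: there is a nonempty symmetric affine open subset. -/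
def AffSym : Prop :=
  ∀ (X : AbVar K) [IsIntegral X.A],
    ∃ U : X.A.Opens, IsAffineOpen U ∧ (∃ x, x ∈ U) ∧ ∀ x : X.A, X.negHom x ∈ U ↔ x ∈ U

/-- A3a: for an affine open `U` and a `K`-point `x` the set `(U - x) ∩ (U + x)` is an affine
open. (`A` is separated, translations are isomorphisms.) -/
def TranslAffine : Prop :=
  ∀ (X : AbVar K) [IsIntegral X.A] (U : X.A.Opens), IsAffineOpen U → ∀ x : X.Pt,
    ∃ W : X.A.Opens, IsAffineOpen W ∧
      ∀ y : X.A, y ∈ W ↔ (X.transl x y ∈ U ∧ X.transl (X.negPt x) y ∈ U)

/-- A3b: the sets `(U - x) ∩ (U + x)`, `x ∈ A(K)`, cover `A` (every point, closed or not). -/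
def Cover : Prop :=
  ∀ (X : AbVar K) [IsIntegral X.A] (U : X.A.Opens), (∃ x, x ∈ U) →
    ∀ y : X.A, ∃ x : X.Pt, X.transl x y ∈ U ∧ X.transl (X.negPt x) y ∈ U

/-! ## The three geometric leaves -/

/-- A2: the complement of a nonempty affine open is an effective Cartier divisor, canonical.
Inputs: local rings of `A` are noetherian UFDs (leaf UFD), algebraic Hartogs (leaf HARTOGS). -/
def ComplDiv : Prop :=
  ∀ (X : AbVar K) [IsIntegral X.A] (U : X.A.Opens), IsAffineOpen U → (∃ x, x ∈ U) →
    ∃ D : CDiv X.A, Effective D ∧ (∀ x, x ∈ U ↔ TrivAt D x) ∧
      ∀ (σ : X.A ⟶ X.A) [IsIso σ] (hσ : σ (genericPoint X.A) = genericPoint X.A),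
        (∀ x, σ x ∈ U ↔ x ∈ U) → CDiv.IsPullback σ hσ D D

/-- A3: for an effective divisor `D` which is trivial exactly on a nonempty affine open `U`,
the sheaf of `2D` is generated by finitely many sections with affine non-vanishing loci. -/
def Sections : Prop :=
  ∀ (X : AbVar K) [IsIntegral X.A] (U : X.A.Opens), IsAffineOpen U → (∃ x, x ∈ U) →
    ∀ D : CDiv X.A, Effective D → (∀ x, x ∈ U ↔ TrivAt D x) →
    ∀ D2 : CDiv X.A, CDiv.IsPow D 2 D2 →
      ∃ (N : ℕ) (w : Fin (N + 1) → X.A.functionField), LS.Good w ∧ CDiv.IsOfSystem w D2

/-- A4 (graded Noether normalisation + LS2): from a GOOD system one can select `g + 1` members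
of its `K`-span which form a GOOD system generating the same sheaf, with algebraically
independent affine coordinates and finite degree. -/
def Project : Prop :=
  ∀ (X : AbVar K) [IsIntegral X.A] (N : ℕ) (w : Fin (N + 1) → X.A.functionField),
    LS.Good w →
    ∃ u : Fin (X.dim + 1) → X.A.functionField,
      LS.Good u ∧ LS.Same u w ∧ LS.Indep X.str u ∧ 0 < LS.deg X.str u

end Stmt

end Ample

end

end Fermat.Agent.S26
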