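import Fermat.Agent.S26.Ample.Basic

/-!
# Row S26, block AMPLE: the glue (helper752), sorry-free

* `sections_of_blocks` : A3 (`Stmt.Sections`) from the theorem of the square (`Stmt.SquareLS`),
  `CDivOps`, and the small leaves `FFStalkMap`, `TranslIso`, `TranslAffine`, `Cover`.
* `alpha_of_blocks` : `Stmt.Alpha` from A1 (`AffSym`), A2 (`ComplDiv`), A3 (`Sections`),
  A4 (`Project`) and the calculus leaves.
-/

set_option autoImplicit false
universe u

open CategoryTheory CategoryTheory.Limits AlgebraicGeometry NeronModelInfra GoodReductionJacobian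

namespace Fermat.Agent.S26

noncomputable section

namespace Ample

variable {K : Type u} [Field K] [IsAlgClosed K]

/-- The section `h` of `2D` attached to a `K`-point `x` by the theorem of the square, with its
non-vanishing locus. -/
theorem exists_section (hS : Stmt.FFStalkMap.{u}) (hT : Stmt.TranslIso K)
    (hA : Stmt.TranslAffine K) (hOps : Stmt.CDivOps.{u}) (hSq : Stmt.SquareLS K)
    (X : AbVar K) [IsIntegral X.A] (U : X.A.Opens) (hU : IsAffineOpen U)
    (D : CDiv X.A) (hDeff : Effective D) (hDtriv : ∀ x, x ∈ U ↔ TrivAt D x)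
    (D2 : CDiv X.A) (hD2 : CDiv.IsPow D 2 D2) (x : X.Pt) :
    ∃ (W : X.A.Opens) (h : X.A.functionField), IsAffineOpen W ∧ h ≠ 0 ∧
      (∀ y, h ∈ LS.span1 (D2.gen y) y) ∧
      (∀ y, LS.span1 (D2.gen y) y = LS.span1 h y ↔ y ∈ W) ∧
      (∀ y, y ∈ W ↔ (X.transl x y ∈ U ∧ X.transl (X.negPt x) y ∈ U)) := by
  have hx := ((hT X).2 x).2
  have hx' := ((hT X).2 (X.negPt x)).2
  obtain ⟨D₁, hD₁⟩ := (hOps X.A D).2.2 X.A (X.transl x) hx
  obtain ⟨D₂, hD₂⟩ := (hOps X.A D).2.2 X.A (X.transl (X.negPt x)) hx'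
  obtain ⟨D₃, hD₃⟩ := (hOps X.A D₁).2.1 D₂
  obtain ⟨h, hh, hlin⟩ := hSq X x hx hx' D D₁ D₂ D₃ D2 hD₁ hD₂ hD₃ hD2
  obtain ⟨W, hW, hWiff⟩ := hA X U hU x
  have hE₁ : Effective D₁ := effective_of_isPullback hS _ hx hD₁ hDeff
  have hE₂ : Effective D₂ := effective_of_isPullback hS _ hx' hD₂ hDeff
  -- `1` is a section of `D₃`
  have h1 : ∀ y, (1 : X.A.functionField) ∈ LS.span1 (D₃.gen y) y := by
    intro y
    rw [hD₃ y]
    simpa using mul_mem_span1_mul (hE₁ y) (hE₂ y)
  refine ⟨W, h, hW, hh, ?_, ?_, hWiff⟩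
  · intro y
    rw [hlin y]
    simpa using mul_left_mem_span1 h (h1 y)
  · intro y
    rw [hlin y]
    constructor
    · intro heq
      -- `D₃.gen y ∈ O_y`
      have hmem : h * D₃.gen y ∈ LS.span1 h y := heq ▸ self_mem_span1 _ _
      obtain ⟨r, hr⟩ := mem_span1.mp hmem
      have hgen : D₃.gen y ∈ LS.span1 (1 : X.A.functionField) y := by
        refine mem_span1.mpr ⟨r, ?_⟩
        have : h * (algebraMap _ _ r * 1) = h * D₃.gen y := by rw [← hr]; ring
        exact mul_left_cancel₀ hh this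
      have hprod : D₁.gen y * D₂.gen y ∈ LS.span1 (1 : X.A.functionField) y := by
        have : D₁.gen y * D₂.gen y ∈ LS.span1 (D₃.gen y) y := by
          rw [hD₃ y]; exact self_mem_span1 _ _
        exact span1_le hgen this
      have ht₁ : TrivAt D₁ y := span1_eq_one_of_mul (hE₁ y) (hE₂ y) hprod
      have ht₂ : TrivAt D₂ y :=
        span1_eq_one_of_mul (hE₂ y) (hE₁ y) (by rwa [mul_comm])
      exact (hWiff y).mpr
        ⟨(hDtriv _).mpr (trivAt_of_isPullback_trivAt hS _ hx hD₁ hDeff ht₁),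
          (hDtriv _).mpr (trivAt_of_isPullback_trivAt hS _ hx' hD₂ hDeff ht₂)⟩
    · intro hy
      obtain ⟨hy₁, hy₂⟩ := (hWiff y).mp hy
      have ht₁ : TrivAt D₁ y := trivAt_of_isPullback hS _ hx hD₁ ((hDtriv _).mp hy₁)
      have ht₂ : TrivAt D₂ y := trivAt_of_isPullback hS _ hx' hD₂ ((hDtriv _).mp hy₂)
      have hgen : D₃.gen y ∈ LS.span1 (1 : X.A.functionField) y := by
        have h3 : D₃.gen y ∈ LS.span1 (D₁.gen y * D₂.gen y) y := by
          rw [← hD₃ y]; exact self_mem_span1 _ _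
        have h12 : D₁.gen y * D₂.gen y ∈ LS.span1 ((1 : X.A.functionField) * 1) y :=
          mul_mem_span1_mul (ht₁ ▸ self_mem_span1 _ _) (ht₂ ▸ self_mem_span1 _ _)
        rw [mul_one] at h12
        exact span1_le h12 h3
      refine span1_eq_of_mem ?_ ?_
      · simpa using mul_left_mem_span1 h hgen
      · simpa using mul_left_mem_span1 h (h1 y)

/-- **A3 from the theorem of the square.** -/
theorem sections_of_blocks (hS : Stmt.FFStalkMap.{u}) (hT : Stmt.TranslIso K)
    (hA : Stmt.TranslAffine K) (hC : Stmt.Cover K) (hOps : Stmt.CDivOps.{u})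
    (hSq : Stmt.SquareLS K) : Stmt.Sections K := by
  intro X _ U hU hne D hDeff hDtriv D2 hD2
  choose W h hW hh hsec hgen hWiff using
    exists_section hS hT hA hOps hSq X U hU D hDeff hDtriv D2 hD2
  -- the `W x` cover `A`
  have hcov : ∀ y : X.A, ∃ x : X.Pt, y ∈ W x := fun y => by
    obtain ⟨x, hx⟩ := hC X U hne y
    exact ⟨x, (hWiff x y).mpr hx⟩
  haveI : IsProper X.str := X.bundle.proper
  haveI : CompactSpace X.A := QuasiCompact.compactSpace_of_compactSpace X.str
  obtain ⟨t, ht⟩ := isCompact_univ.elim_finite_subcover (fun x : X.Pt => (W x : Set X.A))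
    (fun x => (W x).isOpen) (fun y _ => by
      obtain ⟨x, hx⟩ := hcov y
      exact Set.mem_iUnion.mpr ⟨x, hx⟩)
  have hcov' : ∀ y : X.A, ∃ x ∈ t, y ∈ W x := fun y => by
    have := ht (Set.mem_univ y)
    simpa using this
  have htne : t.Nonempty := by
    obtain ⟨x, hx, -⟩ := hcov' (genericPoint X.A)
    exact ⟨x, hx⟩
  obtain ⟨N, hN⟩ : ∃ N, t.card = N + 1 :=
    ⟨t.card - 1, (Nat.succ_pred_eq_of_pos (Finset.card_pos.mpr htne)).symm⟩
  let e : Fin (N + 1) ≃ t := (Fintype.equivFinOfCardEq (by simpa using hN)).symm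
  refine ⟨N, fun i => h (e i).1, ?_, ?_⟩
  · -- GOOD
    have hspan : ∀ y, LS.span (fun i => h (e i).1) y = LS.span1 (D2.gen y) y := by
      intro y
      apply le_antisymm
      · refine Submodule.span_le.mpr ?_
        rintro _ ⟨i, rfl⟩
        exact hsec _ y
      · obtain ⟨x, hx, hy⟩ := hcov' y
        rw [(hgen x y).mpr hy]
        refine Submodule.span_le.mpr ?_
        simp only [Set.singleton_subset_iff]
        refine Submodule.subset_span ⟨e.symm ⟨x, hx⟩, ?_⟩
        simp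
    have hgenAt : ∀ y i, LS.GenAt (fun i => h (e i).1) y i ↔ y ∈ W (e i).1 := by
      intro y i
      rw [LS.GenAt, hspan y]
      constructor
      · rintro ⟨-, heq⟩
        exact (hgen _ y).mp heq
      · intro hy
        exact ⟨hh _, (hgen _ y).mpr hy⟩
    refine ⟨fun y => ?_, fun i => ⟨W (e i).1, hW _, fun y => (hgenAt y i).symm⟩⟩
    obtain ⟨x, hx, hy⟩ := hcov' y
    refine ⟨e.symm ⟨x, hx⟩, (hgenAt y _).mpr ?_⟩
    simpa using hy
  · -- divisor of the system
    intro y
    apply le_antisymm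
    · refine Submodule.span_le.mpr ?_
      rintro _ ⟨i, rfl⟩
      exact hsec _ y
    · obtain ⟨x, hx, hy⟩ := hcov' y
      rw [(hgen x y).mpr hy]
      refine Submodule.span_le.mpr ?_
      simp only [Set.singleton_subset_iff]
      refine Submodule.subset_span ⟨e.symm ⟨x, hx⟩, ?_⟩
      simp

/-- Squares of equal principal fractional ideals are equal. -/
theorem span1_sq_eq {X : Scheme.{u}} [IsIntegral X] {f g : X.functionField} {x : X}
    (h : LS.span1 f x = LS.span1 g x) : LS.span1 (f ^ 2) x = LS.span1 (g ^ 2) x := by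
  have hf : f ∈ LS.span1 g x := h ▸ self_mem_span1 f x
  have hg : g ∈ LS.span1 f x := h ▸ self_mem_span1 g x
  rw [pow_two, pow_two]
  exact span1_eq_of_mem (mul_mem_span1_mul hf hf) (mul_mem_span1_mul hg hg)

/-- **Block AMPLE**: `Stmt.Alpha` from A1–A4. -/
theorem alpha_of_blocks (hS : Stmt.FFStalkMap.{u}) (hT : Stmt.TranslIso K)
    (hA1 : Stmt.AffSym K) (hA2 : Stmt.ComplDiv K) (hA3 : Stmt.Sections K)
    (hA4 : Stmt.Project K) (hOps : Stmt.CDivOps.{u}) (hLOps : Stmt.LSDivOps.{u}) :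
    Stmt.Alpha K := by
  intro X _ hneg
  obtain ⟨U, hU, hne, hsym⟩ := hA1 X
  obtain ⟨D, hDeff, hDtriv, hDcan⟩ := hA2 X U hU hne
  obtain ⟨D2, hD2⟩ := (hOps X.A D).1 2
  obtain ⟨N, w, hw, hwD⟩ := hA3 X U hU hne D hDeff hDtriv D2 hD2
  obtain ⟨u, hu, huw, hind, hdeg⟩ := hA4 X N w hw
  refine ⟨u, hu, hind, hdeg, 1, one_ne_zero, ?_⟩
  have huD : CDiv.IsOfSystem u D2 := fun y => (huw y).trans (hwD y)
  haveI : IsIso X.negHom := (hT X).1
  have hDsym : CDiv.IsPullback X.negHom hneg D D := hDcan X.negHom hneg hsym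
  have hD2sym : CDiv.IsPullback X.negHom hneg D2 D2 := by
    intro y
    rw [hD2 y, span1_sq_eq (hDsym y), ← map_pow]
    exact (ffMap_span1_eq hS X.negHom hneg y (hD2 (X.negHom y))).symm
  have := (hLOps X.A X.dim u D2 huD).2 X.A X.negHom hneg D2 hD2sym
  intro y
  simp only [one_mul]
  rw [this y, huD y]

end Ample

end

end Fermat.Agent.S26
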